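import Fermat.Agent.Final.Wire
import Fermat.Agent.RTM.HG
import Fermat.Agent.RTM.Witt
import Fermat.Agent.RTM.Main
import Fermat.Agent.FrobE.Qbar
import Fermat.Prelude.Def_FreyPackage_IsConductorLevel

/-!
# `S43` and `S44` from the level lowering theorems of the final wiring
-/

set_option autoImplicit false

namespace Fermat.Agent.Hedge

open WeierstrassCurve WeierstrassCurve.Affine WeierstrassCurve.Affine.Point CuspForm IsLocalRing
  Fermat.Agent.RTM Fermat.Agent.Final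

/-- monotonicity of residual modularity -/
theorem res_mul {W : WeierstrassCurve ℤ} (hΔ : W.Δ ≠ 0) {p : ℕ} (hp : p.Prime) (hp2 : p ≠ 2)
    (hirr : W.ModRepIsIrreducible p) {N q : ℕ} (hN : N ≠ 0) (hq : q.Prime) (hqN : ¬ q ∣ N)
    (hres : W.IsResiduallyModularOfLevel p N) : W.IsResiduallyModularOfLevel p (N * q) := by
  have hpf := Fact.mk hp
  have hm : p * (N * q) * W.Δ.natAbs ≠ 0 :=
    mul_ne_zero (mul_ne_zero hp.ne_zero (mul_ne_zero hN hq.ne_zero)) (Int.natAbs_ne_zero.2 hΔ)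
  have hnq : N * q ∣ p * (N * q) * W.Δ.natAbs := (Dvd.intro_left p rfl).mul_right _
  have hn : N ∣ p * (N * q) * W.Δ.natAbs := (Dvd.intro q rfl).trans hnq
  have hpm : p ∣ p * (N * q) * W.Δ.natAbs := (Dvd.intro _ rfl : p ∣ p * (N * q)).mul_right _
  have hΔm : ∀ r : ℕ, r.Prime → (r : ℤ) ∣ W.Δ → r ∣ p * (N * q) * W.Δ.natAbs :=
    fun r _ h => (Int.natCast_dvd.1 h).mul_left _
  have hmax : (PP W (p * (N * q) * W.Δ.natAbs) (Wp p)).IsPrime := inferInstance
  have h1 := nz_of_res W (Wp p) hm hp hpm (p_mem p) hΔm hn hres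
  have h2 := nz_mul hq ((Nat.Prime.coprime_iff_not_dvd hq).2 hqN) hn hnq
    (PP W (p * (N * q) * W.Δ.natAbs) (Wp p)) h1
  exact res_of_nz W (Wp p) hm hp (p_mem p) hΔ hnq
    (fun M hM => nonEis_PP W hΔ hp hp2 hirr _ hm hM (p_mem p)) h2

/-- two integral models have congruent traces of Frobenius -/
theorem ap_congr (E : WeierstrassCurve ℚ) {W W' : WeierstrassCurve ℤ}
    (hWE : W.IsIntegralModelOf E) (hWE' : W'.IsIntegralModelOf E) {p : ℕ} (hp : p.Prime)
    (hp2 : p ≠ 2)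
    (hnt : Nontrivial (Submodule.torsionBy ℤ (E⁄(AlgebraicClosure ℚ)).Point p)) {ℓ : ℕ}
    (hℓ : ℓ.Prime) (hg : W.IsGoodPrimeFor ℓ) (hg' : W'.IsGoodPrimeFor ℓ) (hℓp : ℓ ≠ p) :
    (p : ℤ) ∣ W.apOfModel ℓ - W'.apOfModel ℓ := by
  obtain ⟨A, hA⟩ := Fermat.Agent.Frob.exists_liesOverPrime (AlgebraicClosure ℚ) hℓ
  obtain ⟨σ, hσ⟩ := Fermat.Agent.Frob.exists_isFrobeniusAt hℓ hA
  have hodd : Odd p := hp.odd_of_ne_two hp2
  have hndvd : ¬ ℓ ∣ p := fun h => hℓp ((Nat.prime_dvd_prime_iff_eq hℓ hp).1 h)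
  obtain ⟨x, hx⟩ := exists_ne (0 : Submodule.torsionBy ℤ (E⁄(AlgebraicClosure ℚ)).Point p)
  have h1 := FrobE.frob_char_torsion E hWE hℓ hg hA hσ hodd hndvd x
  have h2 := FrobE.frob_char_torsion E hWE' hℓ hg' hA hσ hodd hndvd x
  have h3 : (W.apOfModel ℓ - W'.apOfModel ℓ) • (σ • x) = 0 := by
    have h4 : W.apOfModel ℓ • (σ • x) = W'.apOfModel ℓ • (σ • x) := by
      have h5 := h1.trans h2.symm
      have h6 := add_right_cancel h5
      exact sub_right_injective h6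
    rw [sub_smul, h4, sub_self]
  by_contra hnd
  obtain ⟨u, v, huv⟩ := (Nat.prime_iff_prime_int.mp hp).coprime_iff_not_dvd.2 hnd
  have hpy : (p : ℤ) • (σ • x) = 0 := Submodule.smul_torsionBy _ _
  have hy : σ • x = 0 := by
    rw [← one_smul ℤ (σ • x), ← huv, add_smul, mul_smul, mul_smul, h3, hpy, smul_zero, smul_zero,
      add_zero]
  exact hx ((smul_eq_zero_iff_eq σ).1 hy)

variable (P : FreyPackage)

theorem irr_int (hirr : GaloisRepIsIrreducible (K := AlgebraicClosure ℚ) ℚ P.freyCurve P.p) :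
    P.freyCurveInt.ModRepIsIrreducible P.p := by
  unfold WeierstrassCurve.ModRepIsIrreducible
  rw [Final.map_eq]
  exact hirr

theorem p_ne_two : P.p ≠ 2 := by
  have := P.hp5
  omega

theorem model_Δ_ne_zero {W : WeierstrassCurve ℤ} (hW : W.IsIntegralModelOf P.freyCurve) :
    W.Δ ≠ 0 := by
  obtain ⟨C, hC⟩ := hW
  intro h0
  have h1 : (W.map (Int.castRingHom ℚ)).Δ = 0 := by
    rw [WeierstrassCurve.map_Δ, h0, _root_.map_zero]
  rw [← hC, WeierstrassCurve.variableChange_Δ] at h1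
  have h2 : P.freyCurve.Δ ≠ 0 := by
    rw [← Final.map_eq, WeierstrassCurve.map_Δ]
    intro h
    exact Final.Δ_ne_zero P (Int.cast_injective (h.trans (Int.cast_zero).symm))
  rcases mul_eq_zero.1 h1 with h | h
  · exact pow_ne_zero _ (Units.ne_zero _) h
  · exact h2 h

/-- residual modularity of the integral Frey curve -/
theorem res_of_rep {N : ℕ} (hN : N ≠ 0)
    (hirr : GaloisRepIsIrreducible (K := AlgebraicClosure ℚ) ℚ P.freyCurve P.p)
    (hmod : P.ModularRepOfLevel N) : P.freyCurveInt.IsResiduallyModularOfLevel P.p N := by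
  classical
  obtain ⟨f, W, 𝔪, hf, hW, hmax, hpm, h⟩ := hmod
  have hNe : NeZero N := ⟨hN⟩
  refine ⟨f, 𝔪, hf, hmax, hpm, fun ℓ hℓ hg hℓN hℓp => ?_⟩
  have hΔW := model_Δ_ne_zero P hW
  refine RTM.congr_of_ae_form hf P.freyCurveInt (Final.Δ_ne_zero P) P.pp 𝔪 hpm
    (W.Δ.natAbs * P.p * P.freyCurveInt.Δ.natAbs).primeFactors (fun r hr hrN hrT => ?_) hℓ hℓN hℓp
    hg
  have hne : W.Δ.natAbs * P.p * P.freyCurveInt.Δ.natAbs ≠ 0 :=
    mul_ne_zero (mul_ne_zero (Int.natAbs_ne_zero.2 hΔW) P.pp.ne_zero)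
      (Int.natAbs_ne_zero.2 (Final.Δ_ne_zero P))
  have hr' : ¬ r ∣ W.Δ.natAbs * P.p * P.freyCurveInt.Δ.natAbs := fun hd =>
    hrT (Nat.mem_primeFactors.2 ⟨hr, hd, hne⟩)
  have hgW : W.IsGoodPrimeFor r := fun hd =>
    hr' (((Int.natCast_dvd.1 hd).mul_right _).mul_right _)
  have hgF : P.freyCurveInt.IsGoodPrimeFor r := fun hd => hr' ((Int.natCast_dvd.1 hd).mul_left _)
  have hrp : r ≠ P.p := fun hd => hr' (hd ▸ (Dvd.intro_left _ rfl).mul_right _)
  obtain ⟨a, ha, ha'⟩ := h r hr hgW hrN hrp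
  refine ⟨a, ha, ?_⟩
  obtain ⟨k, hk⟩ := ap_congr P.freyCurve hW (Final.isIntegralModelOf P) P.pp (p_ne_two P) hirr.1 hr
    hgW hgF hrp
  have e1 : a - ((P.freyCurveInt.apOfModel r : ℤ) : integralClosure ℤ ℂ) =
      (a - ((W.apOfModel r : ℤ) : integralClosure ℤ ℂ)) +
        (P.p : integralClosure ℤ ℂ) * ((k : ℤ) : integralClosure ℤ ℂ) := by
    have e2 : ((W.apOfModel r - P.freyCurveInt.apOfModel r : ℤ) : integralClosure ℤ ℂ) =
        (P.p : integralClosure ℤ ℂ) * ((k : ℤ) : integralClosure ℤ ℂ) := by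
      rw [hk]; push_cast; rfl
    rw [← e2]
    push_cast
    ring
  rw [e1]
  exact add_mem ha' (Ideal.mul_mem_right _ _ hpm)

theorem rep_of_res {M : ℕ} (h : P.freyCurveInt.IsResiduallyModularOfLevel P.p M) :
    P.ModularRepOfLevel M := by
  obtain ⟨f, 𝔪, hf, hmax, hpm, hc⟩ := h
  exact ⟨f, P.freyCurveInt, 𝔪, hf, Final.isIntegralModelOf P, hmax, hpm, hc⟩

theorem p_dvd_Δ (h : (P.p : ℤ) ∣ P.a * P.b * P.c) : (P.p : ℤ) ∣ P.freyCurveInt.Δ := by
  have hpp : Prime (P.p : ℤ) := Nat.prime_iff_prime_int.mp P.pp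
  have h1 : (P.p : ℤ) ∣ 256 * P.freyCurveInt.Δ := by
    rw [Final.Δ_eq]
    have e : (P.a ^ P.p * P.b ^ P.p * P.c ^ P.p) ^ 2 = (P.a * P.b * P.c) ^ (P.p * 2) := by
      ring
    rw [e]
    exact Dvd.dvd.pow h (mul_ne_zero P.pp.ne_zero two_ne_zero)
  rcases hpp.dvd_or_dvd h1 with h2 | h2
  · exfalso
    have h3 : (P.p : ℤ) ∣ (2 : ℤ) ^ 8 := by norm_num; exact h2
    have h4 : (P.p : ℤ) ∣ (2 : ℤ) := hpp.dvd_of_dvd_pow h3
    have h5 : P.p ∣ 2 := by exact_mod_cast h4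
    exact p_ne_two P ((Nat.prime_dvd_prime_iff_eq P.pp Nat.prime_two).1 h5)
  · exact h2

theorem ss2 : SS2 P.freyCurveInt :=
  ⟨Final.Δ_ne_zero P, Final.isSemistableModel P, Final.two_dvd_Δ P⟩

/-- the level can be made even -/
theorem exists_even {N : ℕ} (hcond : P.IsConductorLevel N)
    (hirr : GaloisRepIsIrreducible (K := AlgebraicClosure ℚ) ℚ P.freyCurve P.p)
    (hmod : P.ModularRepOfLevel N) : ∃ N' : ℕ, EvenLevel N' ∧
      (P.p ∣ N' → (P.p : ℤ) ∣ P.freyCurveInt.Δ) ∧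
      P.freyCurveInt.IsResiduallyModularOfLevel P.p N' := by
  have hres := res_of_rep P hcond.pos.ne' hirr hmod
  have hpd : P.p ∣ N → (P.p : ℤ) ∣ P.freyCurveInt.Δ := fun h => p_dvd_Δ P (hcond.support _ P.pp h)
  by_cases h2 : 2 ∣ N
  · exact ⟨N, ⟨hcond.squarefree, h2⟩, hpd, hres⟩
  · refine ⟨N * 2, ⟨?_, Dvd.intro_left N rfl⟩, fun h => hpd ?_, res_mul (Final.Δ_ne_zero P) P.pp
      (p_ne_two P) (irr_int P hirr) hcond.pos.ne' Nat.prime_two h2 hres⟩
    · rw [Nat.squarefree_mul ((Nat.Prime.coprime_iff_not_dvd Nat.prime_two).2 h2).symm]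
      exact ⟨hcond.squarefree, Nat.prime_two.squarefree⟩
    · rcases P.pp.dvd_mul.1 h with h3 | h3
      · exact h3
      · exact absurd ((Nat.prime_dvd_prime_iff_eq P.pp Nat.prime_two).1 h3) (p_ne_two P)

/-- There is no modular Frey representation, given both level lowering theorems. -/
theorem false_of_level (hL : Final.Lowering) (hLp : Final.LoweringAtPFrey) {N : ℕ}
    (hcond : P.IsConductorLevel N)
    (hirr : GaloisRepIsIrreducible (K := AlgebraicClosure ℚ) ℚ P.freyCurve P.p)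
    (hmod : P.ModularRepOfLevel N) : False := by
  have h17 := KummerFLT.frey_seventeen_le P
  obtain ⟨N', hN', hpΔ, hres⟩ := exists_even P hcond hirr hmod
  obtain ⟨M, hM, hpM, hresM⟩ : ∃ M : ℕ, EvenLevel M ∧ ¬ P.p ∣ M ∧
      P.freyCurveInt.IsResiduallyModularOfLevel P.p M := by
    by_cases hpN : P.p ∣ N'
    · refine ⟨N' / P.p, evenLevel_div hN' P.pp (p_ne_two P) hpN, ?_, ?_⟩
      · intro h
        obtain ⟨k, hk⟩ := h
        have h1 : N' = P.p * (N' / P.p) := (Nat.mul_div_cancel' hpN).symm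
        have h2 : P.p * P.p ∣ N' := ⟨k, by rw [mul_assoc, ← hk]; exact h1⟩
        have h3 := hN'.1 P.p h2
        exact P.pp.one_lt.ne' (Nat.isUnit_iff.mp h3)
      · exact hLp P h17 (irr_int P hirr) N' hN' hpN (hpΔ hpN) hres
    · exact ⟨N', hN', hpN, hres⟩
  obtain ⟨f, hf⟩ := exists_cuspForm_two hL P.p P.pp h17 P.freyCurveInt (ss2 P) (irr_int P hirr)
    (fun q hq hq2 => Final.dvd_padicValInt P hq hq2) (Final.not_dvd_padicValInt_two P) M hM hpM
    hresM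
  exact hf (S07.result f)

/-- **S43**, given both level lowering theorems. -/
theorem s43_of (hL : Final.Lowering) (hLp : Final.LoweringAtPFrey) (P : FreyPackage) {N q : ℕ}
    (hcond : P.IsConductorLevel N)
    (hirr : GaloisRepIsIrreducible (K := AlgebraicClosure ℚ) ℚ P.freyCurve P.p)
    (hmod : P.ModularRepOfLevel N) : ∃ M : ℕ, M ∣ N ∧ ¬ q ∣ M ∧ P.ModularRepOfLevel M :=
  (false_of_level P hL hLp hcond hirr hmod).elim

/-- **S44**, given both level lowering theorems. -/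
theorem s44_of (hL : Final.Lowering) (hLp : Final.LoweringAtPFrey) (P : FreyPackage) {N : ℕ}
    (hcond : P.IsConductorLevel N)
    (hirr : GaloisRepIsIrreducible (K := AlgebraicClosure ℚ) ℚ P.freyCurve P.p)
    (hmod : P.ModularRepOfLevel N) : ∃ M : ℕ, M ∣ N ∧ ¬ P.p ∣ M ∧ P.ModularRepOfLevel M :=
  (false_of_level P hL hLp hcond hirr hmod).elim

end Fermat.Agent.Hedge
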