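import Fermat.Agent.Hedge.Low
import Fermat.Agent.Final.LowerFrey

/-!
# `S43` from the level lowering theorems for Frey curves
-/

set_option autoImplicit false

namespace Fermat.Agent.Hedge

open WeierstrassCurve WeierstrassCurve.Affine WeierstrassCurve.Affine.Point
open Fermat.Agent.Final

variable (P : FreyPackage)

/-- There is no modular Frey representation, given both level lowering theorems. -/
theorem false_of_level_frey (hL : Final.LoweringFrey) (hLp : Final.LoweringAtPFrey) {N : ℕ}
    (hcond : P.IsConductorLevel N)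
    (hirr : GaloisRepIsIrreducible (K := AlgebraicClosure ℚ) ℚ P.freyCurve P.p)
    (hmod : P.ModularRepOfLevel N) : False := by
  have h17 := KummerFLT.frey_seventeen_le P
  obtain ⟨N', hN', hpΔ, hres⟩ := exists_even P hcond hirr hmod
  obtain ⟨M, hM, hpM, hresM⟩ : ∃ M : ℕ, EvenLevel M ∧ ¬ P.p ∣ M ∧
      P.freyCurveInt.IsResiduallyModularOfLevel P.p M := by
    by_cases hpN : P.p ∣ N'
    · refine ⟨N' / P.p, evenLevel_div hN' P.pp (p_ne_two P) hpN, ?_, ?_⟩
      · intro h
        obtain ⟨k, hk⟩ := h
        have h1 : N' = P.p * (N' / P.p) := (Nat.mul_div_cancel' hpN).symm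
        have h2 : P.p * P.p ∣ N' := ⟨k, by rw [mul_assoc, ← hk]; exact h1⟩
        have h3 := hN'.1 P.p h2
        exact P.pp.one_lt.ne' (Nat.isUnit_iff.mp h3)
      · exact hLp P h17 (irr_int P hirr) N' hN' hpN (hpΔ hpN) hres
    · exact ⟨N', hN', hpN, hres⟩
  obtain ⟨f, hf⟩ := exists_cuspForm_two_frey hL P h17 (irr_int P hirr) M hM hpM hresM
  exact hf (S07.result f)

end Fermat.Agent.Hedge
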