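import Fermat.Agent.Hedge.Low
import Fermat.Agent.TW.Base2
import Fermat.Agent.RTM.ResId
import Fermat.Agent.RTE.Model
import Fermat.Agent.Tate.Final
import Fermat.Agent.Tate.JInput
import Fermat.Agent.DefRing.Burnside
import Fermat.Agent.TWP.Tame2
import Fermat.Agent.S30

/-!
# A residual representation ramified at `q` is not modular of level prime to `q`
-/

set_option autoImplicit false
set_option maxHeartbeats 1000000

noncomputable section

namespace Fermat.Agent.Hedge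

open WeierstrassCurve WeierstrassCurve.Affine CuspForm IsLocalRing Matrix
  Fermat.Agent.RTM Fermat.Agent.Final Fermat.Agent.TW Fermat.Agent.RTE Fermat.Agent.DefRing

open Fermat.Agent.TWP (Pl Pl_lies exists_tame_pair)

local notation "Qb" => AlgebraicClosure ℚ

/-- a residual representation satisfying the Taylor–Wiles hypotheses spans the matrix algebra -/
theorem span_of_rd {k : Type} [Field k] {p : ℕ} {r : DefRing.GQ →* M2 k} (h : TWP.RD p r) :
    Submodule.span k (Set.range r) = ⊤ := by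
  apply span_descent (K := AlgebraicClosure k)
  have key := burnside_two (mapRep (algebraMap k (AlgebraicClosure k)) r) ?_
  · exact key
  intro V hV
  by_contra hcon
  push Not at hcon
  obtain ⟨h0, h1⟩ := hcon
  obtain ⟨v, hv, hv0⟩ := Submodule.exists_mem_ne_zero_of_ne_bot h0
  obtain ⟨g, -, hg⟩ := h.irr ⊤ (Or.inr rfl) v hv0
  have hgv : (r g).map (algebraMap k (AlgebraicClosure k)) *ᵥ v ∈ V := hV g v hv
  apply h1
  rw [eq_top_iff]
  have hlin : LinearIndependent (AlgebraicClosure k)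
      ![v, (r g).map (algebraMap k (AlgebraicClosure k)) *ᵥ v] := by
    rw [LinearIndependent.pair_iff' hv0]
    exact fun a ha => hg a ha.symm
  have hspan := hlin.span_eq_top_of_card_eq_finrank (by simp)
  rw [← hspan, Submodule.span_le]
  rintro _ ⟨i, rfl⟩
  fin_cases i
  · exact hv
  · exact hgv

section Main

variable {W : WeierstrassCurve ℤ} (hΔ : W.Δ ≠ 0) (hss : W.IsSemistableModel)
  (h2 : (2 : ℤ) ∣ W.Δ) {p : ℕ} [hp : Fact p.Prime] (hp2 : p ≠ 2) (hirr : W.ModRepIsIrreducible p)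
  (hcase : Case W p)

include hΔ hss h2 hp2 hirr hcase in
/-- **ramified primes divide the level** -/
theorem not_res_of_ramified {q : Nat.Primes} (hqp : (q : ℕ) ≠ p) (hqΔ : ((q : ℕ) : ℤ) ∣ W.Δ)
    (hval : ¬ p ∣ padicValInt q W.Δ) {N : ℕ} (hN : N ≠ 0) (hqN : ¬ (q : ℕ) ∣ N) :
    ¬ W.IsResiduallyModularOfLevel p N := by
  intro hres
  have hell := isElliptic_EW hΔ
  have hne : NeZero N := ⟨hN⟩
  let f : ℤ_[p] →+* Wp p := algebraMap ℤ_[p] (Wp p)
  let i : GaloisField p 2 →+* ResidueField (Wp p) := ((resEquiv p).symm : _ →+* _)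
  have hrd : TWP.RD p (rbE (EW W) p f) := rd_EW hss h2 hp2 hcase hirr (p_mem p) f i
  have hspan := span_of_rd hrd
  obtain ⟨sd⟩ := exists_sliceData (rbE (EW W) p f) hspan
  have hns := nonScalar_EW p hirr
  have hWE := isIntegralModelOf_EW W
  have hm : p * N * W.Δ.natAbs ≠ 0 :=
    mul_ne_zero (mul_ne_zero hp.out.ne_zero hN) (Int.natAbs_ne_zero.2 hΔ)
  have hn : N ∣ p * N * W.Δ.natAbs := (Dvd.intro_left p rfl).mul_right _
  have hpm : p ∣ p * N * W.Δ.natAbs := (Dvd.intro _ rfl : p ∣ p * N).mul_right _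
  have hΔm : ∀ r : ℕ, r.Prime → (r : ℤ) ∣ W.Δ → r ∣ p * N * W.Δ.natAbs :=
    fun r _ h => (Int.natCast_dvd.1 h).mul_left _
  have hnt := nz_of_res W (Wp p) hm hp.out hpm (p_mem p) hΔm hn hres
  have h𝔪 : ResId (rbE (EW W) p f) (PP W (p * N * W.Δ.natAbs) (Wp p)) := by
    refine resId_PP W _ fun l B hB τ hτ => ?_
    have hl : (l : ℕ).Prime := l.2.1
    have hlm : ¬ (l : ℕ) ∣ p * N * W.Δ.natAbs := l.2.2
    have h1 := trace_rE_frob (EW W) p hWE f hns hl hB (fun h => hlm (by rw [h]; exact hpm))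
      (fun h => hlm (hΔm _ hl h)) hτ
    have h3 : (rbE (EW W) p f τ).trace = residue (Wp p) (rE (EW W) p f τ).trace := by
      rw [rbE_eq, Matrix.trace_fin_two, Matrix.trace_fin_two, _root_.map_add]
      rfl
    rw [h3, h1, map_intCast]
  obtain ⟨H⟩ := exists_hrep_base Fermat.Agent.S30.result hn hpm (p_mem p) sd hspan hrd.cont
    (Fermat.Agent.Tate.es N) h𝔪 (nonEis_PP W hΔ hp.out hp2 hirr _ hm hN (p_mem p)) hm
  obtain ⟨c, φ, τ, hc, hτ, hτc, hφ⟩ := exists_tame_pair p q hqp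
  have h1 : H.C.r τ = 1 := H.unr q q.2 hqN hqp (Pl q) (Pl_lies q) τ hτ
  refine rbE_tame (EW W) p hWE (p_mem p) f hqp hqΔ (hss q q.2 hqΔ) hc hτ hτc hp2 hval ?_
  ext a b
  obtain ⟨o, ho⟩ := residue_surjective (rbE (EW W) p f τ a b)
  have h3 := H.C.red τ a b o ho
  rw [h1] at h3
  obtain ⟨o', ho'⟩ : ∃ o' : Wp p, (1 : M2 H.C.T) a b = algebraMap (Wp p) H.C.T o' ∧
      (1 : M2 (ResidueField (Wp p))) a b = residue (Wp p) o' := by
    by_cases hab : a = b
    · exact ⟨1, by rw [hab, Matrix.one_apply_eq, _root_.map_one],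
        by rw [hab, Matrix.one_apply_eq, _root_.map_one]⟩
    · exact ⟨0, by rw [Matrix.one_apply_ne hab, _root_.map_zero],
        by rw [Matrix.one_apply_ne hab, _root_.map_zero]⟩
  rw [ho'.1, ← map_sub] at h3
  rw [← ho, ho'.2, eq_comm, ← sub_eq_zero, ← map_sub, residue_eq_zero_iff]
  rw [mem_maximalIdeal, mem_nonunits_iff] at h3 ⊢
  exact fun hu => h3 (hu.map _)

end Main

/-- **S44**, given level lowering at `p` only. -/
theorem s44_of_atp (hLp : Final.LoweringAtPFrey) (P : FreyPackage) {N : ℕ}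
    (hcond : P.IsConductorLevel N) (hpN : P.p ∣ N)
    (hirr : Affine.Point.GaloisRepIsIrreducible (K := AlgebraicClosure ℚ) ℚ P.freyCurve P.p)
    (hmod : P.ModularRepOfLevel N) : ∃ M : ℕ, M ∣ N ∧ ¬ P.p ∣ M ∧ P.ModularRepOfLevel M := by
  have hpf : Fact P.p.Prime := ⟨P.pp⟩
  have h17 := KummerFLT.frey_seventeen_le P
  have hres := res_of_rep P hcond.pos.ne' hirr hmod
  have h2 : 2 ∣ N := by
    by_contra h2
    exact not_res_of_ramified (W := P.freyCurveInt) (Final.Δ_ne_zero P)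
      (Final.isSemistableModel P) (Final.two_dvd_Δ P) (p_ne_two P) (irr_int P hirr)
      (Or.inr (Or.inr (Final.not_dvd_padicValInt_two P))) (q := ⟨2, Nat.prime_two⟩)
      (p_ne_two P).symm (Final.two_dvd_Δ P) (Final.not_dvd_padicValInt_two P) hcond.pos.ne' h2
      hres
  refine ⟨N / P.p, Nat.div_dvd_of_dvd hpN, ?_, rep_of_res P ?_⟩
  · intro h
    obtain ⟨k, hk⟩ := h
    have h1 : N = P.p * (N / P.p) := (Nat.mul_div_cancel' hpN).symm
    have h2 : P.p * P.p ∣ N := ⟨k, by rw [mul_assoc, ← hk]; exact h1⟩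
    have h3 := hcond.squarefree P.p h2
    exact P.pp.one_lt.ne' (Nat.isUnit_iff.mp h3)
  · exact hLp P h17 (irr_int P hirr) N ⟨hcond.squarefree, h2⟩ hpN
      (p_dvd_Δ P (hcond.support _ P.pp hpN)) hres

end Fermat.Agent.Hedge
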